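/-
S28 (Igusa) -- helper508: adapter `CoreData N (ZMod ℓ) → BasisData N ℓ`
(captain interfaces `Fermat/Agent/S28/Defs.lean`, `Fermat/Agent/S28/Basis.lean`).
-/
import Fermat.Agent.S28.Basis
import Fermat.Agent.S28.H88.PrimeLevel

set_option autoImplicit false

noncomputable section

open ModularCurve HahnSeries Polynomial

namespace Fermat.Agent.S28.H508

/-- Elements of `ℤ[j(q^d) : d ∣ N]` are integral over `ℤ[j]` as soon as the generators are. -/
theorem isIntegralElem_of_mem_closure (N : ℕ)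
    (hint : ∀ (d : ℕ) [NeZero d], d ∣ N →
      ∃ P : Polynomial (Polynomial ℤ), P.Monic ∧
        P.eval₂ (evalAt (jqModC ℤ)) (qExpand ℤ d (jqModC ℤ)) = 0)
    {y : LaurentSeries ℤ} (hy : y ∈ Subring.closure (intDivisorExpansions N)) :
    (evalAt (jqModC ℤ)).IsIntegralElem y := by
  induction hy using Subring.closure_induction with
  | mem x hx =>
    obtain ⟨d, hd, hdN, rfl⟩ := hx
    exact hint d hdN
  | zero => exact (evalAt (jqModC ℤ)).isIntegralElem_zero
  | one => exact (evalAt (jqModC ℤ)).isIntegralElem_one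
  | add x y _ _ hx hy => exact RingHom.IsIntegralElem.add _ hx hy
  | neg x _ hx => exact RingHom.IsIntegralElem.neg _ hx
  | mul x y _ _ hx hy => exact RingHom.IsIntegralElem.mul _ hx hy

theorem evalAt_C (a : ℤ) : evalAt (jqModC ℚ) (C a) = (a : LaurentSeries ℚ) := by
  simp [evalAt]

/-- Every element of `ℚ(j)` is a quotient of two integer polynomials in `j`. -/
theorem exists_int_fraction {c : LaurentSeries ℚ} (hc : c ∈ jField ℚ) :
    ∃ f g : Polynomial ℤ, evalAt (jqModC ℚ) g ≠ 0 ∧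
      evalAt (jqModC ℚ) g * c = evalAt (jqModC ℚ) f := by
  unfold jField at hc
  induction hc using IntermediateField.adjoin_induction with
  | mem x hx =>
    rw [Set.mem_singleton_iff] at hx
    subst hx
    refine ⟨X, 1, ?_, ?_⟩
    · rw [map_one]; exact one_ne_zero
    · rw [map_one, one_mul]
      simp [evalAt]
  | algebraMap r =>
    refine ⟨C r.num, C (r.den : ℤ), ?_, ?_⟩
    · rw [evalAt_C, Int.cast_natCast, ← map_natCast (HahnSeries.C (Γ := ℤ) (R := ℚ))]
      exact (map_ne_zero_iff _ HahnSeries.C_injective).mpr (by exact_mod_cast r.den_ne_zero)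
    · rw [evalAt_C, evalAt_C]
      have h : ((r.den : ℚ)) * r = (r.num : ℚ) := by
        rw [mul_comm]; exact Rat.mul_den_eq_num r
      have h2 := congrArg (algebraMap ℚ (LaurentSeries ℚ)) h
      rw [map_mul, map_natCast, map_intCast] at h2
      exact_mod_cast h2
  | add x y _ _ hx hy =>
    obtain ⟨f₁, g₁, hg₁, h₁⟩ := hx
    obtain ⟨f₂, g₂, hg₂, h₂⟩ := hy
    refine ⟨f₁ * g₂ + f₂ * g₁, g₁ * g₂, ?_, ?_⟩
    · rw [map_mul]; exact mul_ne_zero hg₁ hg₂
    · rw [map_mul, map_add, map_mul, map_mul, ← h₁, ← h₂]; ring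
  | inv x _ hx =>
    obtain ⟨f, g, hg, h⟩ := hx
    by_cases hf : evalAt (jqModC ℚ) f = 0
    · have hx0 : x = 0 := by
        rw [hf] at h
        exact (mul_eq_zero.mp h).resolve_left hg
      refine ⟨0, 1, ?_, ?_⟩
      · rw [map_one]; exact one_ne_zero
      · rw [hx0, inv_zero, mul_zero, map_zero]
    · refine ⟨g, f, hf, ?_⟩
      have hx0 : x ≠ 0 := by
        rintro rfl
        rw [mul_zero] at h
        exact hf h.symm
      rw [← h]
      field_simp
  | mul x y _ _ hx hy =>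
    obtain ⟨f₁, g₁, hg₁, h₁⟩ := hx
    obtain ⟨f₂, g₂, hg₂, h₂⟩ := hy
    refine ⟨f₁ * f₂, g₁ * g₂, ?_, ?_⟩
    · rw [map_mul]; exact mul_ne_zero hg₁ hg₂
    · rw [map_mul, map_mul, ← h₁, ← h₂]; ring

/-- Clearing denominators in a `ℚ(j)`-linear combination. -/
theorem exists_cleared_of_mem_span {n : ℕ} (v : Fin n → LaurentSeries ℚ) {x : LaurentSeries ℚ}
    (hx : x ∈ Submodule.span (jField ℚ) (Set.range v)) :
    ∃ (g : Polynomial ℤ) (f : Fin n → Polynomial ℤ), g ≠ 0 ∧
      evalAt (jqModC ℚ) g * x = ∑ i, evalAt (jqModC ℚ) (f i) * v i := by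
  obtain ⟨c, rfl⟩ := (Submodule.mem_span_range_iff_exists_fun (jField ℚ)).mp hx
  have hc : ∀ i, ∃ f g : Polynomial ℤ, evalAt (jqModC ℚ) g ≠ 0 ∧
      evalAt (jqModC ℚ) g * (c i : LaurentSeries ℚ) = evalAt (jqModC ℚ) f :=
    fun i => exists_int_fraction (c i).2
  choose f g hg hfg using hc
  refine ⟨∏ i, g i, fun i => f i * ∏ k ∈ Finset.univ.erase i, g k, ?_, ?_⟩
  · intro h0
    have : evalAt (jqModC ℚ) (∏ i, g i) = 0 := by rw [h0, map_zero]
    rw [map_prod] at this
    obtain ⟨i, -, hi⟩ := Finset.prod_eq_zero_iff.mp this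
    exact hg i hi
  · rw [Finset.mul_sum]
    refine Finset.sum_congr rfl fun i _ => ?_
    rw [← Finset.mul_prod_erase Finset.univ g (Finset.mem_univ i), map_mul, map_mul,
      IntermediateField.smul_def, smul_eq_mul, ← hfg i]
    ring

/-- The adapter: the field-theoretic core output `CoreData` (over `𝔽_ℓ`) gives the K-free
interface `BasisData` consumed by the valuation layer. -/
theorem basisData_of_coreData (N : ℕ) [NeZero N] (ℓ : ℕ) [Fact ℓ.Prime]
    (h : CoreData N (ZMod ℓ)) : BasisData N ℓ := by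
  obtain ⟨n, y, hy, hspan, hind⟩ := h.exists_basis
  refine ⟨n, y, ?_, ?_, ?_⟩
  · intro i
    obtain ⟨P, hP, hPy⟩ := isIntegralElem_of_mem_closure N h.integral (hy i)
    refine ⟨1, P, ?_, ?_, hPy⟩
    · exact (Nat.Prime.one_lt (Fact.out : ℓ.Prime)).ne' ∘ Nat.dvd_one.mp
    · rw [hP.leadingCoeff]; simp
  · intro x hx
    exact exists_cleared_of_mem_span _ (hspan x hx)
  · intro f hf
    have hmem : ∀ i, Polynomial.aeval (jqModC (ZMod ℓ)) (f i) ∈ jField (ZMod ℓ) := fun i =>
      IntermediateField.algebra_adjoin_le_adjoin _ _ (Polynomial.aeval_mem_adjoin_singleton _ _)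
    have h0 := Fintype.linearIndependent_iff.mp hind
      (fun i => ⟨Polynomial.aeval (jqModC (ZMod ℓ)) (f i), hmem i⟩) (by
        simpa [IntermediateField.smul_def] using hf)
    intro i
    have hi := congrArg Subtype.val (h0 i)
    simp only [ZeroMemClass.coe_zero] at hi
    exact h88_aeval_jqModC_injective (ZMod ℓ) (by rw [hi, map_zero])

end Fermat.Agent.S28.H508
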