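/-
S28 (Igusa) -- helper508: [INT] integrality of `j(q^d)` over `ℤ[j]` for every `d` all of whose
prime factors have a modular polynomial (field `CoreData.integral`, hypothesis `hint` of
`H325.coreData_of_bounds`).
-/
import Fermat.Agent.S28.Defs
import Fermat.Agent.S28.H145.PrimeDegree

set_option autoImplicit false
set_option linter.style.haveILetI false

noncomputable section

open ModularCurve HahnSeries Polynomial

namespace Fermat.Agent.S28.H508

/-- `x` is integral over `ℤ[y]` (the image of `evalAt y`). -/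
abbrev IntOver (y x : LaurentSeries ℤ) : Prop := (evalAt y).IsIntegralElem x

theorem intOver_self (y : LaurentSeries ℤ) : IntOver y y := by
  have h := (evalAt y).isIntegralElem_map (x := (X : Polynomial ℤ))
  rwa [show evalAt y X = y from by simp [evalAt]] at h

/-- Transitivity: `x` integral over `ℤ[y]`, `y` integral over `ℤ[z]` ⇒ `x` integral over `ℤ[z]`. -/
theorem IntOver.trans {x y z : LaurentSeries ℤ} (hxy : IntOver y x) (hyz : IntOver z y) :
    IntOver z x := by
  letI : Algebra (Polynomial ℤ) (LaurentSeries ℤ) := (evalAt z).toAlgebra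
  have hy : IsIntegral (Polynomial ℤ) y := hyz
  obtain ⟨P, hP, hPx⟩ := hxy
  -- the coefficients of `P.map (evalAt y)` are integral over `ℤ[z]`
  set A := integralClosure (Polynomial ℤ) (LaurentSeries ℤ) with hA
  have hcoeff : ∀ c : Polynomial ℤ, evalAt y c ∈ A := by
    intro c
    induction c using Polynomial.induction_on' with
    | add p q hp hq => rw [map_add]; exact A.add_mem hp hq
    | monomial n a =>
      have h1 : evalAt y (Polynomial.monomial n a) = (a : LaurentSeries ℤ) * y ^ n := by
        simp [evalAt, Polynomial.aeval_monomial]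
      rw [h1]
      exact A.mul_mem (intCast_mem A a) (A.pow_mem hy n)
  have hlift : P.map (evalAt y) ∈ Polynomial.lifts (algebraMap A (LaurentSeries ℤ)) := by
    rw [Polynomial.lifts_iff_coeff_lifts]
    intro n
    rw [Polynomial.coeff_map]
    exact ⟨⟨evalAt y (P.coeff n), hcoeff _⟩, rfl⟩
  obtain ⟨Q, hQmap, -, hQmonic⟩ :=
    Polynomial.lifts_and_natDegree_eq_and_monic hlift (hP.map _)
  have hxA : IsIntegral A x := by
    refine ⟨Q, hQmonic, ?_⟩
    rw [← Polynomial.eval_map, hQmap, Polynomial.eval_map]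
    exact hPx
  exact isIntegral_trans (R := Polynomial ℤ) (A := A) x hxA

/-- Applying `V_d = qExpand d` to an integrality relation. -/
theorem IntOver.map_qExpand {x y : LaurentSeries ℤ} (h : IntOver y x) (d : ℕ) [NeZero d] :
    IntOver (qExpand ℤ d y) (qExpand ℤ d x) := by
  obtain ⟨P, hP, hPx⟩ := h
  refine ⟨P, hP, ?_⟩
  have := congrArg (qExpand ℤ d) hPx
  rwa [Polynomial.hom_eval₂, H145.qExpand_comp_evalAt, map_zero] at this

/-- `j(q^p)` is integral over `ℤ[j]` (modular polynomial). -/
theorem intOver_prime {p : ℕ} [NeZero p] (Φ : ModPolyData p) :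
    IntOver (jqModC ℤ) (qExpand ℤ p (jqModC ℤ)) :=
  ⟨Φ.Φ, Φ.monic, Φ.eval_jp⟩

/-- **[INT]** `j(q^d)` is integral over `ℤ[j]` whenever every prime factor of `d` has a modular
polynomial. -/
theorem intOver_qExpand_jq (d : ℕ) [NeZero d]
    (hΦ : ∀ p (hp : p.Prime), p ∣ d → Nonempty (@ModPolyData p ⟨hp.ne_zero⟩)) :
    IntOver (jqModC ℤ) (qExpand ℤ d (jqModC ℤ)) := by
  have main : ∀ n : ℕ, ∀ (d : ℕ) [NeZero d], d = n →
      (∀ p (hp : p.Prime), p ∣ d → Nonempty (@ModPolyData p ⟨hp.ne_zero⟩)) →
      IntOver (jqModC ℤ) (qExpand ℤ d (jqModC ℤ)) := by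
    intro n
    induction n using Nat.strong_induction_on with
    | _ n ih =>
      intro d instd hdn hΦ
      by_cases hd1 : d = 1
      · subst hd1
        rw [qExpand_one_apply]
        exact intOver_self _
      obtain ⟨p, hp, hpd⟩ := Nat.exists_prime_and_dvd hd1
      obtain ⟨e, he⟩ := hpd
      have he0 : e ≠ 0 := by
        rintro rfl
        exact (NeZero.ne d) (by rw [he, mul_zero])
      haveI : NeZero e := ⟨he0⟩
      haveI : NeZero p := ⟨hp.ne_zero⟩
      have hlt : e < n := by
        rw [← hdn, he]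
        have := hp.one_lt
        have hepos : 0 < e := Nat.pos_of_ne_zero he0
        nlinarith
      have IH := ih e hlt e rfl (fun q hq hqe => hΦ q hq (hqe.trans ⟨p, by rw [he, mul_comm]⟩))
      obtain ⟨Φ⟩ := hΦ p hp ⟨e, he⟩
      have h1 : IntOver (qExpand ℤ e (jqModC ℤ)) (qExpand ℤ e (qExpand ℤ p (jqModC ℤ))) :=
        (intOver_prime Φ).map_qExpand e
      have h2 : qExpand ℤ e (qExpand ℤ p (jqModC ℤ)) = qExpand ℤ d (jqModC ℤ) := by
        haveI : NeZero (e * p) := ⟨mul_ne_zero he0 hp.ne_zero⟩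
        rw [qExpand_qExpand]
        exact qExpand_congr (by rw [he, mul_comm]) _
      rw [h2] at h1
      exact h1.trans IH
  exact main d d rfl hΦ

/-- The field `integral` of `CoreData N K`, from the modular polynomials of the primes `p ∣ N`. -/
theorem exists_monic_of_modPolyData (N : ℕ)
    (hΦ : ∀ p (hp : p.Prime), p ∣ N → Nonempty (@ModPolyData p ⟨hp.ne_zero⟩)) :
    ∀ (d : ℕ) [NeZero d], d ∣ N →
      ∃ P : Polynomial (Polynomial ℤ), P.Monic ∧
        P.eval₂ (evalAt (jqModC ℤ)) (qExpand ℤ d (jqModC ℤ)) = 0 :=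
  fun d _ hd => intOver_qExpand_jq d (fun p hp hpd => hΦ p hp (hpd.trans hd))

end Fermat.Agent.S28.H508
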