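/-
S28 (Igusa) -- helper508: [L]-assembly.  `CoreData N K` from the prime-level analytic inputs
(`ModPolyData p` for the primes `p ∣ N`) and the LOWER BOUND
`ψ(N) ≤ [K(j(q^d) : d ∣ N) : K(j)]` (linear-independence form).
Uses [INT] (`H508.Integral`), the upper bound of helper626 (`H626.Upper`) and the glue of
helper325 (`H325.Glue`).
-/
import Fermat.Agent.S28.H508.Integral
import Fermat.Agent.S28.H325.Glue
import Fermat.Agent.S28.H626.Upper

set_option autoImplicit false
set_option linter.style.haveILetI false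

noncomputable section

open ModularCurve HahnSeries Polynomial

namespace Fermat.Agent.S28.H508

/-- The two evaluation homs `ℤ[Y] → ℤ((q))` (captain's `evalAt`, helper626's `ev2`) agree; they are
built from two different (propositionally equal) `ℤ`-algebra instances. -/
theorem ev2_eq_eval₂_evalAt (Φ : Polynomial (Polynomial ℤ)) (y x : LaurentSeries ℤ) :
    H626.ev2 Φ y x = Φ.eval₂ (evalAt y) x := by
  unfold H626.ev2
  congr 1
  refine Polynomial.ringHom_ext' (Subsingleton.elim _ _) ?_
  simp [evalAt]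

/-- Adapter: captain's `ModPolyData` gives helper626's `IsModPoly`. -/
theorem isModPoly_of_modPolyData {p : ℕ} [NeZero p] (Φ : ModPolyData p) :
    H626.IsModPoly p Φ.Φ :=
  ⟨Φ.monic, Φ.natDegree_eq, by rw [ev2_eq_eval₂_evalAt]; exact Φ.eval_jp,
    by rw [ev2_eq_eval₂_evalAt]; exact Φ.eval_j⟩

/-- Adapter: `HasModPolys k N` from the modular polynomials of the primes `p ∣ N`. -/
theorem hasModPolys_of_modPolyData (k : Type*) [Field k] (N : ℕ)
    (hk : ∀ p : ℕ, p.Prime → p ∣ N → (p : k) ≠ 0)
    (hΦ : ∀ p (hp : p.Prime), p ∣ N → Nonempty (@ModPolyData p ⟨hp.ne_zero⟩)) :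
    H626.HasModPolys k N := by
  intro p hp hpN
  haveI : NeZero p := ⟨hp.ne_zero⟩
  obtain ⟨Φ⟩ := hΦ p hp hpN
  exact ⟨hk p hp hpN, Φ.Φ, isModPoly_of_modPolyData Φ⟩

/-- The upper bound over `ℚ` in the shape consumed by `H325.coreData_of_bounds`. -/
theorem upper_rat (N : ℕ) [NeZero N]
    (hΦ : ∀ p (hp : p.Prime), p ∣ N → Nonempty (@ModPolyData p ⟨hp.ne_zero⟩)) :
    ∀ (m : ℕ) (x : Fin m → LaurentSeries ℚ), (∀ i, x i ∈ modularFunctionFieldFull N) →
      LinearIndependent (jField ℚ) x → m ≤ dedekindPsi N := by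
  intro m x hx hli
  have H : H626.HasModPolys ℚ N :=
    hasModPolys_of_modPolyData ℚ N (fun p hp _ => by exact_mod_cast hp.ne_zero) hΦ
  have := H626.card_le_of_linearIndependent (k := ℚ) N H x hx hli
  simpa using this

/-- **[L]-assembly.** `CoreData N K` from the modular polynomials and the lower bound over `K`. -/
theorem coreData_of_lower (N : ℕ) [NeZero N] (K : Type) [Field K]
    (hΦ : ∀ p (hp : p.Prime), p ∣ N → Nonempty (@ModPolyData p ⟨hp.ne_zero⟩))
    (hL : ∃ x : Fin (dedekindPsi N) → LaurentSeries K,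
      (∀ i, x i ∈ modularFunctionFieldFullC K N) ∧ LinearIndependent (jField K) x) :
    CoreData N K :=
  H325.coreData_of_bounds N K (RingHom.id K) (dedekindPsi N)
    (exists_monic_of_modPolyData N hΦ) (upper_rat N hΦ) hL

end Fermat.Agent.S28.H508
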